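import Mathlib
import Fermat.Statements.S16

/-!
# S16 - contracts (interfaces between the streams)

`T := heckeLatticeAlgebra p ∅`, `evalT p : ℤ[X_ℓ] → T`, `eisEval p : ℤ[X_ℓ] → ℤ` (X_ℓ ↦ 1+ℓ, X_p ↦ 1).
`T ⧸ I·T ≅ ℤ ⧸ J`, `J = eisEval (ker evalT)`.  LOW: `J ⊆ nℤ`.  UP: `J ⊆ mℤ → m ∣ n`.
-/

set_option autoImplicit false

namespace Fermat.Agent.S16x

open ModularCurve CuspForm

/-- sum of the divisors of `k` that are prime to `p` -/
def sigmaP (p k : ℕ) : ℤ := ∑ d ∈ k.divisors with ¬ p ∣ d, (d : ℤ)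

variable (p : ℕ) [Fact p.Prime]

/-- the composite `ℤ[X_ℓ] → heckeAlgebra p 2 ∅ → heckeLatticeAlgebra p ∅` of the frozen statement -/
noncomputable def evalT : HeckeAlg →+* ↥(heckeLatticeAlgebra p ∅) :=
  (latticeRestrictHom p ∅).toRingHom.comp (heckeEvalForms p 2)

/-- the Eisenstein character `X_ℓ ↦ 1 + ℓ (ℓ ≠ p), X_p ↦ 1` -/
noncomputable def eisEval : HeckeAlg →+* ℤ :=
  (MvPolynomial.aeval (R := ℤ) (eisensteinSystem p)).toRingHom

/-- **(LOW)** every Hecke polynomial killing the lattice has Eisenstein value divisible by `n`. -/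
def ContractLOW : Prop :=
  ∀ P : HeckeAlg, evalT p P = 0 → (eisensteinNumerator p : ℤ) ∣ eisEval p P

/-- **(E) duality**: if all Hecke polynomials killing the lattice have Eisenstein value divisible by `m`,
there is a cusp form with integral coefficients congruent to `∑ σ'(k) q^k` mod `m`. -/
def ContractDUAL : Prop :=
  ∀ m : ℕ, 0 < m → (∀ P : HeckeAlg, evalT p P = 0 → (m : ℤ) ∣ eisEval p P) →
    ∃ f : CuspForm (CongruenceSubgroup.Gamma0 p) 2, ∀ k : ℕ, 0 < k →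
      ∃ a : ℤ, ModularFormClass.qCoeff f k = (a : ℂ) ∧ (m : ℤ) ∣ a - sigmaP p k

/-- **(Eis)** the Eisenstein series `(p-1)/24 + ∑ σ'(k) q^k` of weight 2 and level `Γ₀(p)`. -/
def ContractEIS : Prop :=
  ∃ E : ModularForm (CongruenceSubgroup.Gamma0 p) 2,
    ModularFormClass.qCoeff E 0 = ((p : ℂ) - 1) / 24 ∧
      ∀ k : ℕ, 0 < k → ModularFormClass.qCoeff E k = (sigmaP p k : ℂ)

/-- **(UP)** constant terms of weight-2 forms on `Γ₀(p)` with integral higher coefficients lie in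
`(gcd(p-1,12)/24) ℤ`. -/
def ContractA : Prop :=
  ∀ (H : ModularForm (CongruenceSubgroup.Gamma0 p) 2) (r : ℚ),
    ModularFormClass.qCoeff H 0 = (r : ℂ) →
    (∀ k : ℕ, 0 < k → ∃ a : ℤ, ModularFormClass.qCoeff H k = (a : ℂ)) →
    ∃ z : ℤ, r = z * ((Nat.gcd (p - 1) 12 : ℚ) / 24)

end Fermat.Agent.S16x
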