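import Fermat.Agent.S16.Contracts

/-!
# S16 - frontier: the frozen statement from the four contracts
-/

set_option autoImplicit false

namespace Fermat.Agent.S16x

open ModularCurve CuspForm ModularFormClass

/-! ### abstract algebra: `T ⧸ ev(ker eis)·T ≅ ℤ ⧸ eis(ker ev)` -/

section Abstract

variable {R T : Type*} [CommRing R] [CommRing T]

theorem exists_gen_abstract (ev : R →+* T) (eis : R →+* ℤ) :
    ∃ c : ℕ, ∀ a : ℤ, (∃ P : R, ev P = 0 ∧ eis P = a) ↔ (c : ℤ) ∣ a := by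
  let J : Ideal ℤ := Ideal.map eis (RingHom.ker ev)
  have hsurj : Function.Surjective eis := fun a => ⟨(a : R), by simp⟩
  have hmem : ∀ a : ℤ, a ∈ J ↔ ∃ P : R, ev P = 0 ∧ eis P = a := by
    intro a
    rw [Ideal.mem_map_iff_of_surjective _ hsurj]
    constructor
    · rintro ⟨P, hP, rfl⟩
      exact ⟨P, (RingHom.mem_ker).mp hP, rfl⟩
    · rintro ⟨P, hP, rfl⟩
      exact ⟨P, (RingHom.mem_ker).mpr hP, rfl⟩
  obtain ⟨g, hg⟩ := (IsPrincipalIdealRing.principal J).principal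
  refine ⟨g.natAbs, fun a => ?_⟩
  rw [← hmem a, hg, Submodule.mem_span_singleton]
  constructor
  · rintro ⟨b, rfl⟩
    exact Dvd.dvd.mul_left (Int.natAbs_dvd.mpr dvd_rfl) b
  · intro h
    obtain ⟨b, rfl⟩ := (Int.natAbs_dvd.mp h)
    exact ⟨b, by rw [smul_eq_mul, mul_comm]⟩

theorem card_quot_abstract (ev : R →+* T) (hev : Function.Surjective ev) (eis : R →+* ℤ) (c : ℕ)
    (hc : ∀ a : ℤ, (∃ P : R, ev P = 0 ∧ eis P = a) ↔ (c : ℤ) ∣ a) :
    Nat.card (T ⧸ Ideal.map ev (RingHom.ker eis)) = c := by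
  let φ : ℤ →+* (T ⧸ Ideal.map ev (RingHom.ker eis)) :=
    (Ideal.Quotient.mk _).comp (Int.castRingHom T)
  have heisZ : ∀ a : ℤ, eis (a : R) = a := fun a => by simp
  have hφsurj : Function.Surjective φ := by
    intro x
    obtain ⟨t, rfl⟩ := Ideal.Quotient.mk_surjective x
    obtain ⟨P, rfl⟩ := hev t
    refine ⟨eis P, ?_⟩
    have hmem : P - ((eis P : ℤ) : R) ∈ RingHom.ker eis := by
      rw [RingHom.mem_ker, map_sub, heisZ, sub_self]
    have h2 : ev (P - ((eis P : ℤ) : R)) ∈ Ideal.map ev (RingHom.ker eis) :=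
      Ideal.mem_map_of_mem _ hmem
    rw [map_sub, map_intCast] at h2
    show (Ideal.Quotient.mk _) ((eis P : ℤ) : T) = _
    exact ((Ideal.Quotient.eq).mpr h2).symm
  have hker : RingHom.ker φ = Ideal.span {(c : ℤ)} := by
    ext a
    rw [RingHom.mem_ker, Ideal.mem_span_singleton, ← hc a]
    show (Ideal.Quotient.mk _) ((a : ℤ) : T) = 0 ↔ _
    rw [Ideal.Quotient.eq_zero_iff_mem, Ideal.mem_map_iff_of_surjective _ hev]
    constructor
    · rintro ⟨Q, hQ, hQa⟩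
      refine ⟨(a : R) - Q, ?_, ?_⟩
      · rw [map_sub, map_intCast, hQa, sub_self]
      · rw [map_sub, heisZ, (RingHom.mem_ker).mp hQ, sub_zero]
    · rintro ⟨P, hP, hPa⟩
      refine ⟨(a : R) - P, ?_, ?_⟩
      · rw [RingHom.mem_ker, map_sub, heisZ, hPa, sub_self]
      · rw [map_sub, map_intCast, hP, sub_zero]
  have e1 : (ℤ ⧸ RingHom.ker φ) ≃+* (T ⧸ Ideal.map ev (RingHom.ker eis)) :=
    RingHom.quotientKerEquivOfSurjective hφsurj
  have e2 : (ℤ ⧸ Ideal.span {(c : ℤ)}) ≃+* ZMod c := Int.quotientSpanNatEquivZMod c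
  rw [← Nat.card_congr e1.toEquiv, hker, Nat.card_congr e2.toEquiv, Nat.card_zmod]

end Abstract

variable (p : ℕ) [Fact p.Prime]

/-! ### the concrete maps -/

theorem heckeEvalForms_surjective : Function.Surjective (heckeEvalForms p 2) := by
  intro t
  have h1 : Algebra.adjoin ℤ (((↑) : ↥(heckeAlgebra p 2 (∅ : Set ℕ)) →
      Module.End ℂ (CuspForm (CongruenceSubgroup.Gamma0 p) 2)) ⁻¹'
        (heckeGenerators p 2 (∅ : Set ℕ))) = ⊤ :=
    Algebra.adjoin_adjoin_coe_preimage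
  have hrange : (MvPolynomial.aeval (R := ℤ) (heckeFormsGen p 2)).range = ⊤ := by
    rw [← Algebra.adjoin_range_eq_range_aeval, eq_top_iff, ← h1]
    apply Algebra.adjoin_mono
    rintro ⟨x, hx⟩ hxs
    rcases hxs with ⟨ℓ, hℓ, hℓN, -, rfl⟩ | ⟨q, hqN, hq, -, rfl⟩
    · refine ⟨⟨ℓ, hℓ⟩, ?_⟩
      rw [heckeFormsGen_of_not_dvd (N := p) (k := 2) (ℓ := ⟨ℓ, hℓ⟩) hℓN]
      rfl
    · refine ⟨⟨q, hq⟩, ?_⟩
      rw [heckeFormsGen_of_dvd (N := p) (k := 2) (q := ⟨q, hq⟩) hqN]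
      rfl
  have : t ∈ (MvPolynomial.aeval (R := ℤ) (heckeFormsGen p 2)).range := by
    rw [hrange]; trivial
  obtain ⟨P, hP⟩ := this
  exact ⟨P, hP⟩

theorem evalT_surjective : Function.Surjective (evalT p) := by
  intro t
  obtain ⟨s, rfl⟩ := latticeRestrictHom_surjective p (∅ : Set ℕ) t
  obtain ⟨P, rfl⟩ := heckeEvalForms_surjective p s
  exact ⟨P, rfl⟩

omit [Fact p.Prime] in
theorem eisensteinIdeal_eq_ker : eisensteinIdeal p = RingHom.ker (eisEval p) := by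
  ext Q
  rw [eisensteinIdeal, mem_eigenIdeal_iff, RingHom.mem_ker]
  rfl

theorem card_quotient_eq (c : ℕ)
    (hc : ∀ a : ℤ, (∃ P : HeckeAlg, evalT p P = 0 ∧ eisEval p P = a) ↔ (c : ℤ) ∣ a) :
    Nat.card (↥(heckeLatticeAlgebra p ∅) ⧸ Ideal.map (evalT p) (eisensteinIdeal p)) = c := by
  rw [eisensteinIdeal_eq_ker]
  exact card_quot_abstract (evalT p) (evalT_surjective p) (eisEval p) c hc

end Fermat.Agent.S16x

namespace Fermat.Agent.S16x

open ModularCurve CuspForm ModularFormClass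

variable (p : ℕ) [Fact p.Prime]

/-! ### the analytic assembly -/

theorem hΓ0 (N : ℕ) : (1 : ℝ) ∈ (Subgroup.map (Matrix.SpecialLinearGroup.mapGL ℝ)
    (CongruenceSubgroup.Gamma0 N)).strictPeriods :=
  CongruenceSubgroup.one_mem_strictPeriods_Gamma0 N

theorem eisensteinNumerator_pos : 0 < eisensteinNumerator p := by
  have hp : 2 ≤ p := (Fact.out : p.Prime).two_le
  have hg : Nat.gcd (p - 1) 12 ∣ p - 1 := Nat.gcd_dvd_left _ _
  have hpos : 0 < p - 1 := by omega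
  exact Nat.div_pos (Nat.le_of_dvd hpos hg) (Nat.gcd_pos_of_pos_left _ hpos)

theorem up_of_contracts (hD : ContractDUAL p) (hE : ContractEIS p) (hA : ContractA p)
    (m : ℕ) (hm : 0 < m) (h : ∀ P : HeckeAlg, evalT p P = 0 → (m : ℤ) ∣ eisEval p P) :
    m ∣ eisensteinNumerator p := by
  obtain ⟨f, hf⟩ := hD m hm h
  obtain ⟨E, hE0, hEk⟩ := hE
  have hmC : (m : ℂ) ≠ 0 := Nat.cast_ne_zero.mpr hm.ne'
  -- the form `H = (E - f)/m`
  let H : ModularForm (CongruenceSubgroup.Gamma0 p) 2 :=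
    ((m : ℂ)⁻¹) • (E - CuspForm.toModularFormₗ f)
  have hcoe : ∀ k : ℕ, qCoeff (⇑H) k = (m : ℂ)⁻¹ * (qCoeff (⇑E) k - qCoeff (⇑f) k) := by
    intro k
    have h1 : (⇑H : UpperHalfPlane → ℂ) = (m : ℂ)⁻¹ • ⇑(E - CuspForm.toModularFormₗ f) := rfl
    have h2 : (⇑(E - CuspForm.toModularFormₗ f) : UpperHalfPlane → ℂ) = ⇑E - ⇑f := rfl
    simp only [qCoeff, h1]
    rw [ModularForm.qExpansion_smul one_pos (hΓ0 p) _ (E - CuspForm.toModularFormₗ f), h2,
      ModularForm.qExpansion_sub one_pos (hΓ0 p) E f]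
    simp
  have hf0 : qCoeff (⇑f) 0 = 0 := CuspFormClass.qExpansion_coeff_zero f one_pos (hΓ0 p)
  have hH0 : qCoeff (⇑H) 0 = (((((p - 1 : ℕ) : ℚ)) / (24 * m) : ℚ) : ℂ) := by
    rw [hcoe 0, hE0, hf0, sub_zero]
    have hp1 : 1 ≤ p := (Fact.out : p.Prime).one_lt.le
    push_cast [Nat.cast_sub hp1]
    field_simp
  have hHk : ∀ k : ℕ, 0 < k → ∃ a : ℤ, qCoeff (⇑H) k = (a : ℂ) := by
    intro k hk
    obtain ⟨a, ha, b, hb⟩ := hf k hk
    refine ⟨-b, ?_⟩
    rw [hcoe k, hEk k hk, ha]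
    have : ((sigmaP p k : ℤ) : ℂ) - (a : ℂ) = -((m : ℂ) * (b : ℂ)) := by
      have hb' : ((a - sigmaP p k : ℤ) : ℂ) = (((m : ℤ) * b : ℤ) : ℂ) := by rw [hb]
      push_cast at hb'
      linear_combination -hb'
    rw [this]
    push_cast
    field_simp
  obtain ⟨z, hz⟩ := hA H _ hH0 hHk
  -- arithmetic
  have hg : Nat.gcd (p - 1) 12 ∣ p - 1 := Nat.gcd_dvd_left _ _
  have hgpos : 0 < Nat.gcd (p - 1) 12 := Nat.gcd_pos_of_pos_right _ (by norm_num)
  have hn : eisensteinNumerator p * Nat.gcd (p - 1) 12 = p - 1 := Nat.div_mul_cancel hg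
  have hmQ : (m : ℚ) ≠ 0 := Nat.cast_ne_zero.mpr hm.ne'
  have hgQ : ((Nat.gcd (p - 1) 12 : ℕ) : ℚ) ≠ 0 := Nat.cast_ne_zero.mpr hgpos.ne'
  have key : ((eisensteinNumerator p : ℕ) : ℚ) = z * m := by
    have h1 : (((p - 1 : ℕ) : ℚ)) = z * (Nat.gcd (p - 1) 12 : ℚ) * m := by
      field_simp at hz
      linarith
    have h2 : (((eisensteinNumerator p * Nat.gcd (p - 1) 12 : ℕ)) : ℚ) = ((p - 1 : ℕ) : ℚ) := by
      rw [hn]
    push_cast at h2
    have h3 : ((eisensteinNumerator p : ℕ) : ℚ) * (Nat.gcd (p - 1) 12 : ℚ) =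
        (z * m) * (Nat.gcd (p - 1) 12 : ℚ) := by rw [h2, h1]; ring
    exact mul_right_cancel₀ hgQ h3
  have keyZ : ((eisensteinNumerator p : ℕ) : ℤ) = z * m := by exact_mod_cast key
  have : (m : ℤ) ∣ (eisensteinNumerator p : ℤ) := ⟨z, by rw [keyZ, mul_comm]⟩
  exact Int.natCast_dvd_natCast.mp this

/-- **S16 from the four contracts.** -/
theorem s16_of_contracts (hL : ContractLOW p) (hD : ContractDUAL p) (hE : ContractEIS p)
    (hA : ContractA p) :
    Nat.card (↥(heckeLatticeAlgebra p ∅) ⧸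
        Ideal.map ((latticeRestrictHom p ∅).toRingHom.comp (heckeEvalForms p 2))
          (eisensteinIdeal p)) =
      eisensteinNumerator p := by
  obtain ⟨c, hc⟩ := exists_gen_abstract (evalT p) (eisEval p)
  have hcard := card_quotient_eq p c hc
  have hnpos := eisensteinNumerator_pos p
  have h1 : eisensteinNumerator p ∣ c := by
    obtain ⟨P, hP0, hPc⟩ := (hc (c : ℤ)).mpr dvd_rfl
    have := hL P hP0
    rw [hPc] at this
    exact Int.natCast_dvd_natCast.mp this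
  have h2 : c ∣ eisensteinNumerator p := by
    rcases Nat.eq_zero_or_pos c with hc0 | hcpos
    · exfalso
      have hall : ∀ P : HeckeAlg, evalT p P = 0 →
          ((2 * eisensteinNumerator p : ℕ) : ℤ) ∣ eisEval p P := by
        intro P hP
        have := (hc (eisEval p P)).mp ⟨P, hP, rfl⟩
        rw [hc0] at this
        have h0 : eisEval p P = 0 := by simpa using this
        rw [h0]; exact dvd_zero _
      have := up_of_contracts p hD hE hA (2 * eisensteinNumerator p) (by omega) hall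
      have := Nat.le_of_dvd hnpos this
      omega
    · exact up_of_contracts p hD hE hA c hcpos fun P hP => (hc (eisEval p P)).mp ⟨P, hP, rfl⟩
  have : c = eisensteinNumerator p := Nat.dvd_antisymm h2 h1
  rw [← this]
  exact hcard

end Fermat.Agent.S16x
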